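import Fermat.Agent.MW.GP

/-!
# MW / ENG : the abstract engine. Definitions.

Everything here is pure (multi)linear algebra over `ℚ̄` with RATIONAL polynomial data; no curves.

* `IsQClosed S` : `S ⊆ ℚ̄^σ` is the zero set of finitely many polynomials with rational coefficients;
* `evalMat N z`, `rowSpan N z` : the value at `z` of a matrix `N` of polynomials, and its row space;
* `rows z` : a point `z` of `ℚ̄^(Fin r × ι)` seen as a family of `r` vectors (a *frame*);
* `bil γ` : the bilinear map `ℚ̄^ι₁ × ℚ̄^ι₂ → ℚ̄^ι₃` with rational structure constants `γ`;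
* `IsQClosedFam r 𝒲` : `𝒲` is a family of `r`-dimensional subspaces of `ℚ̄^ι` which is closed and defined
  over `ℚ` (in terms of frames).
-/

set_option autoImplicit false

noncomputable section

namespace Fermat.Agent.MW

open MvPolynomial

/-- Zero sets of finitely many polynomials with rational coefficients. -/
def IsQClosed {σ : Type*} (S : Set (σ → Qb)) : Prop :=
  ∃ (n : ℕ) (Ψ : Fin n → MvPolynomial σ ℚ), ∀ z, z ∈ S ↔ ∀ j, aeval z (Ψ j) = 0

/-- The value at `z` of a matrix of polynomials. -/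
def evalMat {σ α ι : Type*} (N : α → ι → MvPolynomial σ ℚ) (z : σ → Qb) : α → ι → Qb :=
  fun a k => aeval z (N a k)

/-- The row space of the value at `z` of a matrix of polynomials. -/
def rowSpan {σ α ι : Type*} (N : α → ι → MvPolynomial σ ℚ) (z : σ → Qb) : Submodule Qb (ι → Qb) :=
  Submodule.span Qb (Set.range (evalMat N z))

/-- A point of `ℚ̄^(Fin r × ι)` as a family of `r` vectors. -/
def rows {r : ℕ} {ι : Type*} (z : Fin r × ι → Qb) : Fin r → ι → Qb := fun i k => z (i, k)

/-- A family of `r` vectors as a point of `ℚ̄^(Fin r × ι)`. -/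
def unrows {r : ℕ} {ι : Type*} (y : Fin r → ι → Qb) : Fin r × ι → Qb := fun p => y p.1 p.2

@[simp] theorem rows_unrows {r : ℕ} {ι : Type*} (y : Fin r → ι → Qb) : rows (unrows y) = y := rfl

@[simp] theorem unrows_rows {r : ℕ} {ι : Type*} (z : Fin r × ι → Qb) : unrows (rows z) = z := rfl

/-- The bilinear map with rational structure constants `γ`. -/
def bil {ι₁ ι₂ ι₃ : Type*} [Fintype ι₁] [Fintype ι₂] (γ : ι₁ → ι₂ → ι₃ → ℚ) :
    (ι₁ → Qb) →ₗ[Qb] (ι₂ → Qb) →ₗ[Qb] (ι₃ → Qb) :=
  LinearMap.mk₂ Qb (fun x y k => ∑ i, ∑ j, algebraMap ℚ Qb (γ i j k) * (x i * y j))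
    (fun x x' y => by
      ext k
      simp only [Pi.add_apply, add_mul, mul_add, Finset.sum_add_distrib])
    (fun c x y => by
      ext k
      simp only [Pi.smul_apply, smul_eq_mul, Finset.mul_sum]
      refine Finset.sum_congr rfl fun i _ => Finset.sum_congr rfl fun j _ => ?_
      ring)
    (fun x y y' => by
      ext k
      simp only [Pi.add_apply, mul_add, Finset.sum_add_distrib])
    (fun c x y => by
      ext k
      simp only [Pi.smul_apply, smul_eq_mul, Finset.mul_sum]
      refine Finset.sum_congr rfl fun i _ => Finset.sum_congr rfl fun j _ => ?_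
      ring)

theorem bil_apply {ι₁ ι₂ ι₃ : Type*} [Fintype ι₁] [Fintype ι₂] (γ : ι₁ → ι₂ → ι₃ → ℚ)
    (x : ι₁ → Qb) (y : ι₂ → Qb) (k : ι₃) :
    bil γ x y k = ∑ i, ∑ j, algebraMap ℚ Qb (γ i j k) * (x i * y j) := rfl

/-- `𝒲` is a closed family, defined over `ℚ`, of `r`-dimensional subspaces of `ℚ̄^ι`. -/
def IsQClosedFam {ι : Type*} (r : ℕ) (𝒲 : Set (Submodule Qb (ι → Qb))) : Prop :=
  (∀ W ∈ 𝒲, Module.finrank Qb W = r) ∧
    ∃ S : Set (Fin r × ι → Qb), IsQClosed S ∧ ∀ z, LinearIndependent Qb (rows z) →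
      (z ∈ S ↔ Submodule.span Qb (Set.range (rows z)) ∈ 𝒲)

end Fermat.Agent.MW
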