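import Fermat.Agent.MW.Eng.Closed
import Fermat.Agent.MW.Loc.VolMap

/-!
# MW / ENG leaf 4: bilinear maps with rational structure constants: upper bound, (ZF) lower bound for
zero-free maps, volume of `s * W`.

(ZF)  Scale `x`, `y` so that `x i₀ = 1 = nrm x`, `y j₀ = 1 = nrm y` (`exists_eq_nrm`, `nrm_smul`).  For every
`(i₀, j₀)` apply `IsQClosed.bound_below` on `σ = ι₁ ⊕ ι₂`, `S = {x i₀ = 1, y j₀ = 1}`, `g k` = the `k`-th
coordinate of `bil γ x y` (a polynomial with rational coefficients).  Take the product of the constants.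
-/

set_option autoImplicit false

namespace Fermat.Agent.MW

open MvPolynomial

variable {ι₁ ι₂ ι₃ : Type*} [Fintype ι₁] [Fintype ι₂] [Fintype ι₃]

theorem Bilin_kap_le (A : AbsFam) (v : Plc) (n : ℕ) :
    kap (A.abv v) n ≤ (AdC.arch (n + 1) (Nat.succ_le_succ (Nat.zero_le n))).c v := by
  refine le_trans ?_ (kap_le_arch A v (n + 1) _)
  unfold kap
  split_ifs
  · exact le_rfl
  · push_cast
    linarith

theorem Bilin_kap_nonneg {K : Type*} [Field K] (a : AbsoluteValue K ℝ) (n : ℕ) : 0 ≤ kap a n := by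
  unfold kap
  split_ifs
  · exact zero_le_one
  · exact Nat.cast_nonneg n

/-- Upper bound. -/
theorem bil_le (γ : ι₁ → ι₂ → ι₃ → ℚ) : ∃ c : AdC, ∀ (A : AbsFam) (v : Plc) (x : ι₁ → Qb)
    (y : ι₂ → Qb), nrm (A.abv v) (bil γ x y) ≤ c.c v * (nrm (A.abv v) x * nrm (A.abv v) y) := by
  classical
  refine ⟨AdC.arch (Fintype.card ι₁ * Fintype.card ι₂ + 1) (Nat.succ_le_succ (Nat.zero_le _)) *
    AdC.prod (Finset.univ : Finset (ι₁ × ι₂ × ι₃)) (fun p => AdC.ofRat (γ p.1 p.2.1 p.2.2)),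
    fun A v x y => ?_⟩
  obtain ⟨G, hG⟩ : ∃ G, G = (AdC.prod (Finset.univ : Finset (ι₁ × ι₂ × ι₃))
    (fun p => AdC.ofRat (γ p.1 p.2.1 p.2.2))).c v := ⟨_, rfl⟩
  have hG1 : 1 ≤ G := hG ▸ AdC.one_le _ v
  have hxy : 0 ≤ nrm (A.abv v) x * nrm (A.abv v) y :=
    mul_nonneg (nrm_nonneg _ x) (nrm_nonneg _ y)
  have hB : 0 ≤ G * (nrm (A.abv v) x * nrm (A.abv v) y) := mul_nonneg (by linarith) hxy
  rw [AdC.mul_c, ← hG, mul_assoc]
  refine nrm_le _ (mul_nonneg (AdC.pos _ v).le hB) fun k => ?_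
  rw [bil_apply]
  have h1 : ∀ i ∈ (Finset.univ : Finset ι₁),
      A.abv v (∑ j, algebraMap ℚ Qb (γ i j k) * (x i * y j)) ≤
        kap (A.abv v) (Fintype.card ι₂) * (G * (nrm (A.abv v) x * nrm (A.abv v) y)) := by
    intro i _
    rw [← Finset.card_univ]
    refine abv_sum_le _ Finset.univ _ hB fun j _ => ?_
    rw [map_mul, map_mul, A.abv_rat]
    refine mul_le_mul ?_ (mul_le_mul (le_nrm _ x i) (le_nrm _ y j) ((A.abv v).nonneg _)
      (nrm_nonneg _ x)) (mul_nonneg ((A.abv v).nonneg _) ((A.abv v).nonneg _)) (by linarith)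
    rw [hG]
    exact (AdC.le_ofRat _ v).trans (AdC.le_prod Finset.univ
      (fun p : ι₁ × ι₂ × ι₃ => AdC.ofRat (γ p.1 p.2.1 p.2.2)) (Finset.mem_univ (i, j, k)) v)
  have h2 := abv_sum_le _ Finset.univ _ (mul_nonneg (Bilin_kap_nonneg _ _) hB) h1
  rw [Finset.card_univ] at h2
  refine h2.trans ?_
  rw [← mul_assoc, kap_mul]
  exact mul_le_mul_of_nonneg_right (Bilin_kap_le A v _) hB

/-- the polynomial giving the `k`-th coordinate of `bil γ x y`. -/
noncomputable def Bilin_poly (γ : ι₁ → ι₂ → ι₃ → ℚ) (k : ι₃) : MvPolynomial (ι₁ ⊕ ι₂) ℚ :=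
  ∑ i, ∑ j, C (γ i j k) * (X (Sum.inl i) * X (Sum.inr j))

omit [Fintype ι₃] in
theorem Bilin_aeval_poly (γ : ι₁ → ι₂ → ι₃ → ℚ) (k : ι₃) (z : ι₁ ⊕ ι₂ → Qb) :
    aeval z (Bilin_poly γ k) = bil γ (fun i => z (Sum.inl i)) (fun j => z (Sum.inr j)) k := by
  rw [bil_apply, Bilin_poly, map_sum]
  refine Finset.sum_congr rfl fun i _ => ?_
  rw [map_sum]
  refine Finset.sum_congr rfl fun j _ => ?_
  rw [map_mul, map_mul, aeval_C, aeval_X, aeval_X]

theorem Bilin_ZF_local (γ : ι₁ → ι₂ → ι₃ → ℚ) (h : ∀ x y, x ≠ 0 → y ≠ 0 → bil γ x y ≠ 0)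
    (i₀ : ι₁) (j₀ : ι₂) : ∃ c : AdC, ∀ (A : AbsFam) (v : Plc) (x : ι₁ → Qb) (y : ι₂ → Qb),
      x i₀ = 1 → y j₀ = 1 → (∀ i, A.abv v (x i) ≤ 1) → (∀ j, A.abv v (y j) ≤ 1) →
      1 ≤ c.c v * nrm (A.abv v) (bil γ x y) := by
  have hS : IsQClosed
      ({z : ι₁ ⊕ ι₂ → Qb | aeval z (X (Sum.inl i₀) - 1 : MvPolynomial (ι₁ ⊕ ι₂) ℚ) = 0} ∩
       {z : ι₁ ⊕ ι₂ → Qb | aeval z (X (Sum.inr j₀) - 1 : MvPolynomial (ι₁ ⊕ ι₂) ℚ) = 0}) :=
    (isQClosed_zero _).inter (isQClosed_zero _)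
  obtain ⟨c, hc⟩ := hS.bound_below (Bilin_poly γ) (by
    rintro z ⟨hz1, hz2⟩
    simp only [Set.mem_ofPred_eq, map_sub, aeval_X, map_one, sub_eq_zero] at hz1 hz2
    have h1 := h (fun i => z (Sum.inl i)) (fun j => z (Sum.inr j))
      (fun h0 => by
        have h2 := congrFun h0 i₀
        simp [hz1] at h2)
      (fun h0 => by
        have h2 := congrFun h0 j₀
        simp [hz2] at h2)
    obtain ⟨k, hk⟩ := Function.ne_iff.1 h1
    exact ⟨k, by rw [Bilin_aeval_poly]; exact hk⟩)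
  refine ⟨c, fun A v x y hx hy hx1 hy1 => ?_⟩
  obtain ⟨k, hk⟩ := hc A v (Sum.elim x y) ⟨by simp [hx], by simp [hy]⟩ (by
    rintro (i | j)
    · exact hx1 i
    · exact hy1 j)
  rw [Bilin_aeval_poly] at hk
  exact hk.trans (mul_le_mul_of_nonneg_left (le_nrm _ (bil γ x y) k) (c.pos v).le)

/-- **(ZF)** Lower bound for zero-free bilinear maps. -/
theorem ZF_abs (γ : ι₁ → ι₂ → ι₃ → ℚ) (h : ∀ x y, x ≠ 0 → y ≠ 0 → bil γ x y ≠ 0) :
    ∃ c : AdC, ∀ (A : AbsFam) (v : Plc) (x : ι₁ → Qb) (y : ι₂ → Qb),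
      nrm (A.abv v) x * nrm (A.abv v) y ≤ c.c v * nrm (A.abv v) (bil γ x y) := by
  classical
  choose c hc using fun p : ι₁ × ι₂ => Bilin_ZF_local γ h p.1 p.2
  refine ⟨AdC.prod Finset.univ c, fun A v x y => ?_⟩
  by_cases hx : x = 0
  · subst hx
    rw [(nrm_eq_zero_iff _ _).2 rfl, zero_mul]
    exact mul_nonneg (AdC.pos _ v).le (nrm_nonneg _ _)
  by_cases hy : y = 0
  · subst hy
    rw [(nrm_eq_zero_iff _ (0 : ι₂ → Qb)).2 rfl, mul_zero]
    exact mul_nonneg (AdC.pos _ v).le (nrm_nonneg _ _)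
  have hne1 : Nonempty ι₁ := by
    by_contra hne
    rw [not_nonempty_iff] at hne
    exact hx (Subsingleton.elim _ _)
  have hne2 : Nonempty ι₂ := by
    by_contra hne
    rw [not_nonempty_iff] at hne
    exact hy (Subsingleton.elim _ _)
  obtain ⟨i₀, hi₀⟩ := exists_eq_nrm (A.abv v) x
  obtain ⟨j₀, hj₀⟩ := exists_eq_nrm (A.abv v) y
  have hxp := nrm_pos (A.abv v) hx
  have hyp := nrm_pos (A.abv v) hy
  have hx0 : x i₀ ≠ 0 := by
    intro h0
    rw [h0, map_zero] at hi₀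
    linarith
  have hy0 : y j₀ ≠ 0 := by
    intro h0
    rw [h0, map_zero] at hj₀
    linarith
  have key := hc (i₀, j₀) A v ((x i₀)⁻¹ • x) ((y j₀)⁻¹ • y) (by simp [hx0]) (by simp [hy0])
    (fun i => by
      rw [Pi.smul_apply, smul_eq_mul, map_mul, map_inv₀, hi₀, inv_mul_le_iff₀ hxp, mul_one]
      exact le_nrm _ x i)
    (fun j => by
      rw [Pi.smul_apply, smul_eq_mul, map_mul, map_inv₀, hj₀, inv_mul_le_iff₀ hyp, mul_one]
      exact le_nrm _ y j)
  rw [map_smul, map_smul, LinearMap.smul_apply, nrm_smul, nrm_smul, map_inv₀, map_inv₀, hi₀, hj₀]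
    at key
  have hle := AdC.le_prod Finset.univ c (Finset.mem_univ (i₀, j₀)) v
  calc nrm (A.abv v) x * nrm (A.abv v) y = nrm (A.abv v) x * nrm (A.abv v) y * 1 := (mul_one _).symm
    _ ≤ nrm (A.abv v) x * nrm (A.abv v) y * ((c (i₀, j₀)).c v * ((nrm (A.abv v) y)⁻¹ *
          ((nrm (A.abv v) x)⁻¹ * nrm (A.abv v) (bil γ x y)))) :=
        mul_le_mul_of_nonneg_left key (mul_pos hxp hyp).le
    _ = (c (i₀, j₀)).c v * nrm (A.abv v) (bil γ x y) := by
        field_simp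
    _ ≤ _ := mul_le_mul_of_nonneg_right hle (nrm_nonneg _ _)

/-- The volume of `s * W` (from `bil_le`, `ZF_abs`, `vol_map_le`, `le_vol_map`). -/
theorem vol_bil (γ : ι₁ → ι₂ → ι₃ → ℚ) (h : ∀ x y, x ≠ 0 → y ≠ 0 → bil γ x y ≠ 0) (r : ℕ) :
    ∃ c : AdC, ∀ (A : AbsFam) (v : Plc) (s : ι₁ → Qb) (t : Fin r → ι₂ → Qb),
      LinearIndependent Qb t →
      vol (A.abv v) (fun i => bil γ s (t i)) ≤ c.c v * (nrm (A.abv v) s ^ r * vol (A.abv v) t) ∧
      nrm (A.abv v) s ^ r * vol (A.abv v) t ≤ c.c v * vol (A.abv v) (fun i => bil γ s (t i)) := by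
  obtain ⟨c₁, h₁⟩ := bil_le γ
  obtain ⟨c₂, h₂⟩ := ZF_abs γ h
  refine ⟨AdC.arch r.factorial (Nat.succ_le_of_lt r.factorial_pos) * (c₁.npow r * c₂.npow r),
    fun A v s t ht => ?_⟩
  have hk := kap_le_arch A v r.factorial (Nat.succ_le_of_lt r.factorial_pos)
  have hk0 : 0 ≤ kap (A.abv v) r.factorial := Bilin_kap_nonneg _ _
  obtain ⟨a, ha⟩ : ∃ a, a = (AdC.arch r.factorial (Nat.succ_le_of_lt r.factorial_pos)).c v :=
    ⟨_, rfl⟩
  have hc1 : 1 ≤ c₁.c v ^ r := one_le_pow₀ (c₁.one_le v)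
  have hc2 : 1 ≤ c₂.c v ^ r := one_le_pow₀ (c₂.one_le v)
  have hcv : (AdC.arch r.factorial (Nat.succ_le_of_lt r.factorial_pos) *
      (c₁.npow r * c₂.npow r)).c v = a * (c₁.c v ^ r * c₂.c v ^ r) := by
    rw [ha]
    rfl
  rw [hcv]
  rw [← ha] at hk
  have hN := nrm_nonneg (A.abv v) s
  have hvt := vol_nonneg (A.abv v) t
  have hvT := vol_nonneg (A.abv v) (fun i => bil γ s (t i))
  constructor
  · have h3 := vol_map_le (A.abv v) (bil γ s) ht (C := c₁.c v * nrm (A.abv v) s)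
      (mul_nonneg (c₁.pos v).le hN) (fun x _ => by
        rw [mul_assoc]
        exact h₁ A v s x)
    refine h3.trans ?_
    rw [mul_pow]
    have h4 : kap (A.abv v) r.factorial * c₁.c v ^ r ≤ a * (c₁.c v ^ r * c₂.c v ^ r) := by
      calc kap (A.abv v) r.factorial * c₁.c v ^ r ≤ a * c₁.c v ^ r :=
            mul_le_mul_of_nonneg_right hk (by linarith)
        _ = a * (c₁.c v ^ r * 1) := by rw [mul_one]
        _ ≤ a * (c₁.c v ^ r * c₂.c v ^ r) :=
            mul_le_mul_of_nonneg_left (mul_le_mul_of_nonneg_left hc2 (by linarith))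
              (hk0.trans hk)
    calc kap (A.abv v) r.factorial * (c₁.c v ^ r * nrm (A.abv v) s ^ r) * vol (A.abv v) t
        = kap (A.abv v) r.factorial * c₁.c v ^ r * (nrm (A.abv v) s ^ r * vol (A.abv v) t) := by
          ring
      _ ≤ _ := mul_le_mul_of_nonneg_right h4 (mul_nonneg (pow_nonneg hN r) hvt)
  · have h4 : kap (A.abv v) r.factorial * c₂.c v ^ r ≤ a * (c₁.c v ^ r * c₂.c v ^ r) := by
      calc kap (A.abv v) r.factorial * c₂.c v ^ r ≤ a * c₂.c v ^ r :=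
            mul_le_mul_of_nonneg_right hk (by linarith)
        _ = a * (1 * c₂.c v ^ r) := by rw [one_mul]
        _ ≤ a * (c₁.c v ^ r * c₂.c v ^ r) :=
            mul_le_mul_of_nonneg_left (mul_le_mul_of_nonneg_right hc1 (by linarith))
              (hk0.trans hk)
    have h5 : nrm (A.abv v) s ^ r * vol (A.abv v) t ≤
        kap (A.abv v) r.factorial * c₂.c v ^ r * vol (A.abv v) (fun i => bil γ s (t i)) := by
      by_cases hs : s = 0
      · rcases Nat.eq_zero_or_pos r with hr | hr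
        · subst hr
          have h6 := le_vol_map (A.abv v) (bil γ s) ht (c := 1) one_pos (fun x hx => by
            have hx0 : x = 0 := by
              have h7 : Set.range t = ∅ := Set.range_eq_empty t
              rw [h7, Submodule.span_empty] at hx
              exact hx
            rw [hx0, map_zero, (nrm_eq_zero_iff _ (0 : ι₂ → Qb)).2 rfl,
              (nrm_eq_zero_iff _ (0 : ι₃ → Qb)).2 rfl, mul_zero])
          simpa using h6
        · rw [hs, (nrm_eq_zero_iff _ (0 : ι₁ → Qb)).2 rfl, zero_pow hr.ne', zero_mul]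
          exact mul_nonneg (mul_nonneg hk0 (by linarith)) (vol_nonneg _ _)
      · have hsp := nrm_pos (A.abv v) hs
        have h6 := le_vol_map (A.abv v) (bil γ s) ht (c := nrm (A.abv v) s / c₂.c v)
          (div_pos hsp (c₂.pos v)) (fun x _ => by
            rw [div_mul_eq_mul_div, div_le_iff₀ (c₂.pos v), mul_comm _ (c₂.c v)]
            exact h₂ A v s x)
        rw [div_pow, div_mul_eq_mul_div, div_le_iff₀ (pow_pos (c₂.pos v) r)] at h6
        calc _ ≤ _ := h6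
          _ = _ := by ring
    exact h5.trans (mul_le_mul_of_nonneg_right h4 hvT)

end Fermat.Agent.MW
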