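import Fermat.Agent.MW.Eng.US
import Fermat.Agent.MW.Eng.Bilin
import Fermat.Agent.MW.Loc.Opn

/-!
# MW / ENG leaf 6: (M) multiplicativity of the norms of multiplicative functionals.

`X₁, X₂, X₃` functionals with `X₃ (s * s') = X₁ s * X₂ s'` on `W₁ × W₂`.  Then
`opn (W₁ * W₂) X₃ ≍ opn W₁ X₁ * opn W₂ X₂`, uniformly in `W₁ ∈ 𝒲₁`, `W₂ ∈ 𝒲₂` and in the functionals.

(≤) echelon bases `y₁, y₂` of `W₁, W₂` (`exists_echelon`), `w = ∑ x i j • y₁ i * y₂ j` with `|x i j| ≤ κ |w|` (`US_abs`),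
`|X₃ w| ≤ kap (r₁ r₂) κ |w| max |X₁ (y₁ i)| max |X₂ (y₂ j)|`, `abv_pair_echelon_le_opn`.
(≥) `|X₁ s| |X₂ s'| = |X₃ (s s')| ≤ opn₃ |s s'| ≤ opn₃ κ' |s| |s'|` (`bil_le`); take sups (`opn_le` twice).
-/

set_option autoImplicit false

namespace Fermat.Agent.MW

variable {ι₁ ι₂ ι₃ : Type*} [Fintype ι₁] [Fintype ι₂] [Fintype ι₃]

/-- An echelon basis of a subspace of given dimension. -/
theorem Mult_exists_echelon {K : Type*} [Field K] (a : AbsoluteValue K ℝ) {ι : Type*} [Fintype ι]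
    {W : Submodule K (ι → K)} {r : ℕ} (h : Module.finrank K W = r) :
    ∃ (I : Fin r → ι) (y : Fin r → ι → K), IsEchelon a y I ∧ Submodule.span K (Set.range y) = W := by
  let b := Module.finBasisOfFinrankEq K W h
  have hli : LinearIndependent K (fun i => ((b i : W) : ι → K)) :=
    b.linearIndependent.map' W.subtype (Submodule.ker_subtype W)
  have hsp : Submodule.span K (Set.range fun i => ((b i : W) : ι → K)) = W := by
    have h1 : (Set.range fun i => ((b i : W) : ι → K)) = W.subtype '' Set.range b := by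
      rw [← Set.range_comp]
      rfl
    rw [h1, ← Submodule.map_span, b.span_eq, Submodule.map_top, Submodule.range_subtype]
  obtain ⟨I, y, hy, hys⟩ := exists_echelon a hli
  exact ⟨I, y, hy, hys.trans hsp⟩

/-- taking the supremum in an inequality with a nonnegative factor. -/
theorem Mult_mul_opn_le {K : Type*} [Field K] (a : AbsoluteValue K ℝ) {ι : Type*} [Fintype ι]
    (W : Submodule K (ι → K)) (X : ι → K) {t C : ℝ} (ht : 0 ≤ t) (hC : 0 ≤ C)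
    (h : ∀ s ∈ W, t * a (pair s X) ≤ C * nrm a s) : t * opn a W X ≤ C := by
  rcases ht.eq_or_lt with h0 | h0
  · rw [← h0, zero_mul]; exact hC
  · have h1 : opn a W X ≤ C / t := by
      refine opn_le a W X (div_nonneg hC ht) fun s hs => ?_
      rw [div_mul_eq_mul_div, le_div_iff₀ h0, mul_comm]
      exact h s hs
    calc t * opn a W X ≤ t * (C / t) := mul_le_mul_of_nonneg_left h1 ht
      _ = C := by field_simp

theorem M_abs (γ : ι₁ → ι₂ → ι₃ → ℚ) {r₁ r₂ ρ : ℕ} {𝒲₁ : Set (Submodule Qb (ι₁ → Qb))}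
    {𝒲₂ : Set (Submodule Qb (ι₂ → Qb))} (h₁ : IsQClosedFam r₁ 𝒲₁) (h₂ : IsQClosedFam r₂ 𝒲₂)
    (hρ : ∀ W₁ ∈ 𝒲₁, ∀ W₂ ∈ 𝒲₂, Module.finrank Qb (Submodule.map₂ (bil γ) W₁ W₂) = ρ) :
    ∃ c : AdC, ∀ (A : AbsFam) (v : Plc), ∀ W₁ ∈ 𝒲₁, ∀ W₂ ∈ 𝒲₂, ∀ (X₁ : ι₁ → Qb) (X₂ : ι₂ → Qb)
      (X₃ : ι₃ → Qb), (∀ s ∈ W₁, ∀ s' ∈ W₂, pair (bil γ s s') X₃ = pair s X₁ * pair s' X₂) →
      opn (A.abv v) (Submodule.map₂ (bil γ) W₁ W₂) X₃ ≤
          c.c v * (opn (A.abv v) W₁ X₁ * opn (A.abv v) W₂ X₂) ∧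
      opn (A.abv v) W₁ X₁ * opn (A.abv v) W₂ X₂ ≤
          c.c v * opn (A.abv v) (Submodule.map₂ (bil γ) W₁ W₂) X₃ := by
  obtain ⟨cU, hU⟩ := US_abs γ h₁ h₂ hρ
  obtain ⟨cB, hB⟩ := bil_le γ
  refine ⟨AdC.arch (r₁ * r₂ + 1) (Nat.le_add_left 1 _) * cU * cB, ?_⟩
  intro A v W₁ hW₁ W₂ hW₂ X₁ X₂ X₃ hmul
  set a := A.abv v with ha
  have hk1 : 1 ≤ (AdC.arch (r₁ * r₂ + 1) (Nat.le_add_left 1 _)).c v := AdC.one_le _ v
  have hU1 : 1 ≤ cU.c v := cU.one_le v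
  have hB1 : 1 ≤ cB.c v := cB.one_le v
  have ho1 : 0 ≤ opn a W₁ X₁ := opn_nonneg a W₁ X₁
  have ho2 : 0 ≤ opn a W₂ X₂ := opn_nonneg a W₂ X₂
  have ho3 : 0 ≤ opn a (Submodule.map₂ (bil γ) W₁ W₂) X₃ := opn_nonneg a _ X₃
  constructor
  · -- upper bound
    obtain ⟨I₁, y₁, he1, hs1⟩ := Mult_exists_echelon a (h₁.1 W₁ hW₁)
    obtain ⟨I₂, y₂, he2, hs2⟩ := Mult_exists_echelon a (h₂.1 W₂ hW₂)
    have hC0 : 0 ≤ (AdC.arch (r₁ * r₂ + 1) (Nat.le_add_left 1 _) * cU * cB).c v *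
        (opn a W₁ X₁ * opn a W₂ X₂) := mul_nonneg (AdC.pos _ v).le (mul_nonneg ho1 ho2)
    refine opn_le a _ X₃ hC0 fun w hw => ?_
    obtain ⟨x, hx, hxb⟩ := hU A v y₁ I₁ y₂ I₂ he1 he2 (hs1 ▸ hW₁) (hs2 ▸ hW₂) w
      (by rw [hs1, hs2]; exact hw)
    have hw2 : w = ∑ p : Fin r₁ × Fin r₂, x p.1 p.2 • bil γ (y₁ p.1) (y₂ p.2) := by
      rw [hx, Fintype.sum_prod_type]
    have hy1 : ∀ i, y₁ i ∈ W₁ := fun i => hs1 ▸ Submodule.subset_span (Set.mem_range_self i)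
    have hy2 : ∀ j, y₂ j ∈ W₂ := fun j => hs2 ▸ Submodule.subset_span (Set.mem_range_self j)
    have hp : pair w X₃ = ∑ p : Fin r₁ × Fin r₂,
        x p.1 p.2 * (pair (y₁ p.1) X₁ * pair (y₂ p.2) X₂) := by
      conv_lhs => rw [hw2]
      rw [Opn_pair_sum_smul]
      exact Finset.sum_congr rfl fun p _ => by rw [hmul _ (hy1 p.1) _ (hy2 p.2)]
    have hb1 : ∀ i, a (pair (y₁ i) X₁) ≤ opn a W₁ X₁ := fun i => by
      have := abv_pair_echelon_le_opn a he1 X₁ i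
      rwa [hs1] at this
    have hb2 : ∀ j, a (pair (y₂ j) X₂) ≤ opn a W₂ X₂ := fun j => by
      have := abv_pair_echelon_le_opn a he2 X₂ j
      rwa [hs2] at this
    have hn : 0 ≤ nrm a w := nrm_nonneg a w
    have hterm : ∀ p ∈ (Finset.univ : Finset (Fin r₁ × Fin r₂)),
        a (x p.1 p.2 * (pair (y₁ p.1) X₁ * pair (y₂ p.2) X₂)) ≤
          cU.c v * nrm a w * (opn a W₁ X₁ * opn a W₂ X₂) := by
      intro p _
      rw [map_mul, map_mul]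
      exact mul_le_mul (hxb p.1 p.2) (mul_le_mul (hb1 p.1) (hb2 p.2) (a.nonneg _) ho1)
        (mul_nonneg (a.nonneg _) (a.nonneg _)) (mul_nonneg (cU.pos v).le hn)
    have hT0 : 0 ≤ cU.c v * nrm a w * (opn a W₁ X₁ * opn a W₂ X₂) :=
      mul_nonneg (mul_nonneg (cU.pos v).le hn) (mul_nonneg ho1 ho2)
    have hsum := abv_sum_le a Finset.univ _ hT0 hterm
    rw [Finset.card_univ, Fintype.card_prod, Fintype.card_fin, Fintype.card_fin] at hsum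
    rw [hp]
    have hkap : kap a (r₁ * r₂) ≤ (AdC.arch (r₁ * r₂ + 1) (Nat.le_add_left 1 _)).c v :=
      (kap_le_kap_succ _ _).trans (kap_le_arch A v _ _)
    calc a (∑ p : Fin r₁ × Fin r₂, x p.1 p.2 * (pair (y₁ p.1) X₁ * pair (y₂ p.2) X₂))
        ≤ kap a (r₁ * r₂) * (cU.c v * nrm a w * (opn a W₁ X₁ * opn a W₂ X₂)) := hsum
      _ ≤ (AdC.arch (r₁ * r₂ + 1) (Nat.le_add_left 1 _)).c v *
          (cU.c v * nrm a w * (opn a W₁ X₁ * opn a W₂ X₂)) :=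
          mul_le_mul_of_nonneg_right hkap hT0
      _ = (AdC.arch (r₁ * r₂ + 1) (Nat.le_add_left 1 _)).c v *
          (cU.c v * nrm a w * (opn a W₁ X₁ * opn a W₂ X₂)) * 1 := (mul_one _).symm
      _ ≤ (AdC.arch (r₁ * r₂ + 1) (Nat.le_add_left 1 _)).c v *
          (cU.c v * nrm a w * (opn a W₁ X₁ * opn a W₂ X₂)) * cB.c v :=
          mul_le_mul_of_nonneg_left hB1 (mul_nonneg (AdC.pos _ v).le hT0)
      _ = (AdC.arch (r₁ * r₂ + 1) (Nat.le_add_left 1 _) * cU * cB).c v *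
          (opn a W₁ X₁ * opn a W₂ X₂) * nrm a w := by
          rw [AdC.mul_c, AdC.mul_c]; ring
  · -- lower bound
    set o₃ := opn a (Submodule.map₂ (bil γ) W₁ W₂) X₃ with ho₃
    have hkey : ∀ s ∈ W₁, ∀ s' ∈ W₂,
        a (pair s X₁) * a (pair s' X₂) ≤ o₃ * cB.c v * nrm a s * nrm a s' := by
      intro s hs s' hs'
      rw [← map_mul, ← hmul s hs s' hs']
      have h1 := abv_pair_le_opn a (Submodule.map₂ (bil γ) W₁ W₂) X₃
        (Submodule.apply_mem_map₂ (bil γ) hs hs')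
      have h2 := hB A v s s'
      calc a (pair (bil γ s s') X₃) ≤ o₃ * nrm a (bil γ s s') := h1
        _ ≤ o₃ * (cB.c v * (nrm a s * nrm a s')) := mul_le_mul_of_nonneg_left h2 ho3
        _ = o₃ * cB.c v * nrm a s * nrm a s' := by ring
    have hC : 0 ≤ o₃ * cB.c v := mul_nonneg ho3 (cB.pos v).le
    have hstep : ∀ s ∈ W₁, opn a W₂ X₂ * a (pair s X₁) ≤ o₃ * cB.c v * nrm a s := by
      intro s hs
      rw [mul_comm]
      exact Mult_mul_opn_le a W₂ X₂ (a.nonneg _) (mul_nonneg hC (nrm_nonneg a s))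
        fun s' hs' => hkey s hs s' hs'
    have hfin : opn a W₂ X₂ * opn a W₁ X₁ ≤ o₃ * cB.c v :=
      Mult_mul_opn_le a W₁ X₁ ho2 hC hstep
    have hbig : cB.c v ≤ (AdC.arch (r₁ * r₂ + 1) (Nat.le_add_left 1 _) * cU * cB).c v := by
      rw [AdC.mul_c, AdC.mul_c]
      have : 1 ≤ (AdC.arch (r₁ * r₂ + 1) (Nat.le_add_left 1 _)).c v * cU.c v :=
        one_le_mul_of_one_le_of_one_le hk1 hU1
      nlinarith [cB.pos v]
    calc opn a W₁ X₁ * opn a W₂ X₂ = opn a W₂ X₂ * opn a W₁ X₁ := mul_comm _ _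
      _ ≤ o₃ * cB.c v := hfin
      _ = cB.c v * o₃ := mul_comm _ _
      _ ≤ _ := mul_le_mul_of_nonneg_right hbig ho3

end Fermat.Agent.MW
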