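import Fermat.Agent.MW.Eng.Bilin
import Fermat.Agent.MW.Loc.Opn

/-!
# MW / ENG leaf 7: the norm of a multiplicative functional on `s * W`.

`X₃ (s * s') = X₁ s * X₂ s'` for `s' ∈ W`.  Then `opn (s * W) X₃ * |s| ≍ |X₁ s| * opn W X₂`.
(≤) `w = s * s'`: `|X₃ w| = |X₁ s| |X₂ s'| ≤ |X₁ s| opn W X₂ |s'|` and `|s| |s'| ≤ κ |w|` (`ZF_abs`); `opn_le`.
(≥) `|X₁ s| |X₂ s'| = |X₃ w| ≤ opn₃ |w| ≤ opn₃ κ' |s| |s'|` (`bil_le`); `opn_le`.
-/

set_option autoImplicit false

namespace Fermat.Agent.MW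

variable {ι₁ ι₂ ι₃ : Type*} [Fintype ι₁] [Fintype ι₂] [Fintype ι₃]

theorem opn_bil (γ : ι₁ → ι₂ → ι₃ → ℚ) (h : ∀ x y, x ≠ 0 → y ≠ 0 → bil γ x y ≠ 0) :
    ∃ c : AdC, ∀ (A : AbsFam) (v : Plc) (s : ι₁ → Qb) (W : Submodule Qb (ι₂ → Qb)) (X₁ : ι₁ → Qb)
      (X₂ : ι₂ → Qb) (X₃ : ι₃ → Qb), s ≠ 0 →
      (∀ s' ∈ W, pair (bil γ s s') X₃ = pair s X₁ * pair s' X₂) →
      opn (A.abv v) (W.map (bil γ s)) X₃ * nrm (A.abv v) s ≤
          c.c v * (A.abv v (pair s X₁) * opn (A.abv v) W X₂) ∧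
      A.abv v (pair s X₁) * opn (A.abv v) W X₂ ≤
          c.c v * (opn (A.abv v) (W.map (bil γ s)) X₃ * nrm (A.abv v) s) := by
  obtain ⟨c₁, h₁⟩ := bil_le γ
  obtain ⟨c₂, h₂⟩ := ZF_abs γ h
  refine ⟨c₁ * c₂, fun A v s W X₁ X₂ X₃ hs hX => ?_⟩
  rw [AdC.mul_c]
  have hsp : 0 < nrm (A.abv v) s := nrm_pos (A.abv v) hs
  have hc1 := c₁.one_le v
  have hc2 := c₂.one_le v
  have hc1p := c₁.pos v
  have hc2p := c₂.pos v
  have ho2 := opn_nonneg (A.abv v) W X₂
  have ho3 := opn_nonneg (A.abv v) (W.map (bil γ s)) X₃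
  have hx1 : 0 ≤ A.abv v (pair s X₁) := (A.abv v).nonneg _
  constructor
  · have hle : opn (A.abv v) (W.map (bil γ s)) X₃ ≤
        c₂.c v * (A.abv v (pair s X₁) * opn (A.abv v) W X₂) / nrm (A.abv v) s := by
      refine opn_le _ _ _ (div_nonneg (mul_nonneg hc2p.le (mul_nonneg hx1 ho2)) hsp.le) ?_
      rintro w ⟨s', hs', rfl⟩
      rw [hX s' hs', map_mul, div_mul_eq_mul_div, le_div_iff₀ hsp]
      have h3 := abv_pair_le_opn (A.abv v) W X₂ hs'
      have h4 := h₂ A v s s'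
      calc A.abv v (pair s X₁) * A.abv v (pair s' X₂) * nrm (A.abv v) s
          ≤ A.abv v (pair s X₁) * (opn (A.abv v) W X₂ * nrm (A.abv v) s') * nrm (A.abv v) s :=
            mul_le_mul_of_nonneg_right (mul_le_mul_of_nonneg_left h3 hx1) hsp.le
        _ = A.abv v (pair s X₁) * opn (A.abv v) W X₂ * (nrm (A.abv v) s * nrm (A.abv v) s') := by
            ring
        _ ≤ A.abv v (pair s X₁) * opn (A.abv v) W X₂ * (c₂.c v * nrm (A.abv v) (bil γ s s')) :=
            mul_le_mul_of_nonneg_left h4 (mul_nonneg hx1 ho2)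
        _ = _ := by ring
    rw [le_div_iff₀ hsp] at hle
    refine hle.trans ?_
    refine mul_le_mul_of_nonneg_right ?_ (mul_nonneg hx1 ho2)
    nlinarith
  · have hgoal : A.abv v (pair s X₁) * opn (A.abv v) W X₂ ≤
        c₁.c v * (opn (A.abv v) (W.map (bil γ s)) X₃ * nrm (A.abv v) s) := by
      rcases hx1.eq_or_lt with h0 | h0
      · rw [← h0, zero_mul]
        exact mul_nonneg hc1p.le (mul_nonneg ho3 hsp.le)
      · have hle : opn (A.abv v) W X₂ ≤
            c₁.c v * (opn (A.abv v) (W.map (bil γ s)) X₃ * nrm (A.abv v) s) /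
              A.abv v (pair s X₁) := by
          refine opn_le _ _ _ (div_nonneg (mul_nonneg hc1p.le (mul_nonneg ho3 hsp.le)) h0.le) ?_
          intro s' hs'
          rw [div_mul_eq_mul_div, le_div_iff₀ h0]
          have h3 := abv_pair_le_opn (A.abv v) (W.map (bil γ s)) X₃
            (Submodule.mem_map_of_mem (f := bil γ s) hs')
          rw [hX s' hs', map_mul] at h3
          have h4 := h₁ A v s s'
          calc A.abv v (pair s' X₂) * A.abv v (pair s X₁)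
              = A.abv v (pair s X₁) * A.abv v (pair s' X₂) := mul_comm _ _
            _ ≤ _ := h3
            _ ≤ opn (A.abv v) (W.map (bil γ s)) X₃ *
                  (c₁.c v * (nrm (A.abv v) s * nrm (A.abv v) s')) :=
                mul_le_mul_of_nonneg_left h4 ho3
            _ = _ := by ring
        rw [le_div_iff₀ h0] at hle
        rw [mul_comm]
        exact hle
    refine hgoal.trans ?_
    refine mul_le_mul_of_nonneg_right ?_ (mul_nonneg ho3 hsp.le)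
    nlinarith

end Fermat.Agent.MW
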