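import Fermat.Agent.MW.Eng.Defs

/-!
# MW / ENG leaf 2: calculus of `ℚ`-closed sets; the Nullstellensatz estimate on a `ℚ`-closed set.
-/

set_option autoImplicit false

namespace Fermat.Agent.MW

open MvPolynomial

variable {σ τ : Type*}

theorem isQClosed_univ : IsQClosed (Set.univ : Set (σ → Qb)) :=
  ⟨0, fun j => j.elim0, fun z => by simp⟩

theorem isQClosed_zeros {κ : Type*} [Finite κ] (P : κ → MvPolynomial σ ℚ) :
    IsQClosed {z : σ → Qb | ∀ k, aeval z (P k) = 0} := by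
  obtain ⟨n, ⟨e⟩⟩ := Finite.exists_equiv_fin κ
  refine ⟨n, fun j => P (e.symm j), fun z => ?_⟩
  constructor
  · intro h j
    exact h _
  · intro h k
    have : aeval z (P (e.symm (e k))) = 0 := h (e k)
    rwa [e.symm_apply_apply] at this

theorem isQClosed_zero (P : MvPolynomial σ ℚ) : IsQClosed {z : σ → Qb | aeval z P = 0} := by
  have h := isQClosed_zeros (fun _ : Unit => P)
  have e : {z : σ → Qb | aeval z P = 0} = {z : σ → Qb | ∀ _ : Unit, aeval z P = 0} := by
    ext z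
    exact ⟨fun h _ => h, fun h => h ()⟩
  rw [e]
  exact h

theorem IsQClosed.inter {S T : Set (σ → Qb)} (hS : IsQClosed S) (hT : IsQClosed T) :
    IsQClosed (S ∩ T) := by
  obtain ⟨n, Ψ, hΨ⟩ := hS
  obtain ⟨m, Ψ', hΨ'⟩ := hT
  have e : S ∩ T = {z : σ → Qb | ∀ k : Fin n ⊕ Fin m, aeval z (Sum.elim Ψ Ψ' k) = 0} := by
    ext z
    rw [Set.mem_inter_iff, hΨ z, hΨ' z]
    constructor
    · rintro ⟨h1, h2⟩ (k | k)
      · exact h1 k
      · exact h2 k
    · intro h
      exact ⟨fun k => h (Sum.inl k), fun k => h (Sum.inr k)⟩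
  rw [e]
  exact isQClosed_zeros _

/-- Preimage under a polynomial map with rational coefficients (`MvPolynomial.bind₁`,
`aeval_bind₁`). -/
theorem IsQClosed.preimage {S : Set (τ → Qb)} (hS : IsQClosed S) (P : τ → MvPolynomial σ ℚ) :
    IsQClosed {z : σ → Qb | (fun t => aeval z (P t)) ∈ S} := by
  obtain ⟨n, Ψ, hΨ⟩ := hS
  refine ⟨n, fun j => bind₁ P (Ψ j), fun z => ?_⟩
  change (fun t => aeval z (P t)) ∈ S ↔ _
  rw [hΨ]
  simp only [aeval_bind₁]

/-- Preimage under a projection / reindexing of the coordinates. -/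
theorem IsQClosed.comp {S : Set (τ → Qb)} (hS : IsQClosed S) (f : τ → σ) :
    IsQClosed {z : σ → Qb | (fun t => z (f t)) ∈ S} := by
  have h := hS.preimage (fun t => (X (f t) : MvPolynomial σ ℚ))
  simp only [aeval_X] at h
  exact h

/-- Products. -/
theorem IsQClosed.prod {S : Set (σ → Qb)} {T : Set (τ → Qb)} (hS : IsQClosed S) (hT : IsQClosed T) :
    IsQClosed {z : σ ⊕ τ → Qb | (fun s => z (Sum.inl s)) ∈ S ∧ (fun t => z (Sum.inr t)) ∈ T} :=
  (hS.comp (Sum.inl : σ → σ ⊕ τ)).inter (hT.comp (Sum.inr : τ → σ ⊕ τ))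

/-- **Nullstellensatz estimate on a closed set.** -/
theorem IsQClosed.bound_below [Finite σ] {S : Set (σ → Qb)} (hS : IsQClosed S) {κ : Type*} [Fintype κ]
    (g : κ → MvPolynomial σ ℚ) (h : ∀ z ∈ S, ∃ k, aeval z (g k) ≠ 0) :
    ∃ c : AdC, ∀ (A : AbsFam) (v : Plc) (z : σ → Qb), z ∈ S → (∀ i, A.abv v (z i) ≤ 1) →
      ∃ k, 1 ≤ c.c v * A.abv v (aeval z (g k)) := by
  obtain ⟨n, Ψ, hΨ⟩ := hS
  obtain ⟨c, hc⟩ := adelic_nullstellensatz_one g Ψ fun z hz => h z ((hΨ z).mpr hz)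
  exact ⟨c, fun A v z hzS hz => hc A v z hz ((hΨ z).mp hzS)⟩

/-- The echelon equations. -/
theorem isQClosed_echelon {r : ℕ} {ι : Type*} (I : Fin r → ι) :
    IsQClosed {z : Fin r × ι → Qb | ∀ i j, z (i, I j) = if i = j then 1 else 0} := by
  have h := isQClosed_zeros (σ := Fin r × ι) (fun p : Fin r × Fin r =>
    (X (p.1, I p.2) - C (if p.1 = p.2 then 1 else 0) : MvPolynomial (Fin r × ι) ℚ))
  have e : {z : Fin r × ι → Qb | ∀ i j, z (i, I j) = if i = j then 1 else 0} =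
      {z : Fin r × ι → Qb | ∀ p : Fin r × Fin r, aeval z
        (X (p.1, I p.2) - C (if p.1 = p.2 then 1 else 0) : MvPolynomial (Fin r × ι) ℚ) = 0} := by
    ext z
    have key : ∀ i j : Fin r, aeval z
        (X (i, I j) - C (if i = j then 1 else 0) : MvPolynomial (Fin r × ι) ℚ) = 0 ↔
        z (i, I j) = if i = j then 1 else 0 := by
      intro i j
      rw [map_sub, aeval_X, aeval_C, sub_eq_zero]
      split_ifs <;> simp
    constructor
    · rintro h ⟨i, j⟩
      exact (key i j).mpr (h i j)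
    · intro h i j
      exact (key i j).mp (h (i, j))
  rw [e]
  exact h

end Fermat.Agent.MW
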