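import Fermat.Agent.MW.Loc.Vol

/-!
# MW / ENG leaf 1: rank and minors; Cramer with bounds.  (Pure linear algebra over a field `K`.)
-/

set_option autoImplicit false

namespace Fermat.Agent.MW

variable {K : Type*} [Field K] {α ι : Type*} [Fintype ι]

/-- A family of rank `ρ` contains `ρ` linearly independent vectors. -/
theorem Minor.exists_linearIndependent (x : α → ι → K) {ρ : ℕ}
    (h : Module.finrank K (Submodule.span K (Set.range x)) = ρ) :
    ∃ R : Fin ρ → α, LinearIndependent K (fun i => x (R i)) := by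
  classical
  obtain ⟨b, hb_sub, hb_span, hb_li⟩ := _root_.exists_linearIndependent K (Set.range x)
  have hfin : b.Finite := hb_li.setFinite
  have : Fintype b := hfin.fintype
  have hcard : Fintype.card b = ρ := by
    have h1 := finrank_span_eq_card hb_li
    rw [Subtype.range_coe, hb_span, h] at h1
    exact h1.symm
  let e : Fin ρ ≃ b := (Fintype.equivFinOfCardEq hcard).symm
  have hch : ∀ i : Fin ρ, ∃ r : α, x r = (e i : ι → K) := fun i => hb_sub (e i).2
  choose R hR using hch
  refine ⟨R, ?_⟩
  have h2 : (fun i => x (R i)) = (Subtype.val : b → ι → K) ∘ e := by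
    funext i
    exact hR i
  rw [h2]
  exact hb_li.comp e e.injective

/-- A family of rank `ρ` has a nonzero `ρ × ρ` minor.
(Choose `R` with `x ∘ R` a basis of the span: `exists_linearIndependent` / `Basis.ofSpan`-type lemma;
then `vol_pos` (for the trivial absolute value or any absolute value), or redo its proof.) -/
theorem exists_minor_ne_zero (x : α → ι → K) {ρ : ℕ}
    (h : Module.finrank K (Submodule.span K (Set.range x)) = ρ) :
    ∃ (R : Fin ρ → α) (C : Fin ρ → ι), Matrix.det (Matrix.of fun i j => x (R i) (C j)) ≠ 0 := by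
  obtain ⟨R, hR⟩ := Minor.exists_linearIndependent x h
  obtain ⟨C, hC⟩ := Vol.exists_minor_ne_zero hR
  exact ⟨R, C, hC⟩

omit [Fintype ι] in
theorem linearIndependent_of_minor_ne_zero (x : α → ι → K) {k : ℕ} (R : Fin k → α) (C : Fin k → ι)
    (h : Matrix.det (Matrix.of fun i j => x (R i) (C j)) ≠ 0) :
    LinearIndependent K (fun i => x (R i)) := by
  rw [Fintype.linearIndependent_iff]
  intro c hc
  have h1 : Matrix.vecMul c (Matrix.of fun i j => x (R i) (C j)) = 0 := by
    funext j
    have h2 := congrFun hc (C j)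
    simpa [Matrix.vecMul, dotProduct] using h2
  have h3 := Matrix.eq_zero_of_vecMul_eq_zero h h1
  intro i
  exact congrFun h3 i

omit [Fintype ι] in
theorem Minor.span_le (x : α → ι → K) {k : ℕ} (R : Fin k → α) :
    Submodule.span K (Set.range fun i => x (R i)) ≤ Submodule.span K (Set.range x) := by
  apply Submodule.span_mono
  rintro _ ⟨i, rfl⟩
  exact ⟨R i, rfl⟩

/-- A nonzero `k × k` minor forces rank `≥ k`. -/
theorem le_finrank_of_minor_ne_zero (x : α → ι → K) {k : ℕ} (R : Fin k → α) (C : Fin k → ι)
    (h : Matrix.det (Matrix.of fun i j => x (R i) (C j)) ≠ 0) :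
    k ≤ Module.finrank K (Submodule.span K (Set.range x)) := by
  have h1 := finrank_span_eq_card (linearIndependent_of_minor_ne_zero x R C h)
  rw [Fintype.card_fin] at h1
  rw [← h1]
  exact Submodule.finrank_mono (Minor.span_le x R)

/-- rank `≤ ρ` iff all `(ρ+1) × (ρ+1)` minors vanish. -/
theorem finrank_le_iff_minors (x : α → ι → K) (ρ : ℕ) :
    Module.finrank K (Submodule.span K (Set.range x)) ≤ ρ ↔
      ∀ (R : Fin (ρ + 1) → α) (C : Fin (ρ + 1) → ι),
        Matrix.det (Matrix.of fun i j => x (R i) (C j)) = 0 := by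
  constructor
  · intro h R C
    by_contra hne
    have := le_finrank_of_minor_ne_zero x R C hne
    omega
  · intro h
    by_contra hlt
    rw [not_le] at hlt
    obtain ⟨R, hR⟩ := Minor.exists_linearIndependent x rfl
    have h1 : LinearIndependent K (fun i : Fin (ρ + 1) => x (R (Fin.castLE hlt i))) :=
      hR.comp (Fin.castLE hlt) (Fin.castLE_injective hlt)
    obtain ⟨C, hC⟩ := Vol.exists_minor_ne_zero h1
    exact hC (h _ C)

/-- If the rank is `ρ`, the rows of a nonzero `ρ × ρ` minor span everything. -/
theorem span_eq_of_minor_ne_zero (x : α → ι → K) {ρ : ℕ}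
    (h : Module.finrank K (Submodule.span K (Set.range x)) = ρ) (R : Fin ρ → α) (C : Fin ρ → ι)
    (hd : Matrix.det (Matrix.of fun i j => x (R i) (C j)) ≠ 0) :
    Submodule.span K (Set.range fun i => x (R i)) = Submodule.span K (Set.range x) := by
  apply Submodule.eq_of_le_of_finrank_eq (Minor.span_le x R)
  rw [finrank_span_eq_card (linearIndependent_of_minor_ne_zero x R C hd), Fintype.card_fin, h]

/-- **Cramer with bounds.**  `w = ∑ c_i x_(R i)`, `c = (w ∘ C) M⁻¹`, `M = (x (R i) (C j))`,
`c_i det M = det (M with i-th row replaced by w ∘ C)` (`Matrix.cramer`), bounded by `abv_det_le`. -/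
theorem solve_bound (a : AbsoluteValue K ℝ) (x : α → ι → K) {ρ : ℕ}
    (h : Module.finrank K (Submodule.span K (Set.range x)) = ρ) (R : Fin ρ → α) (C : Fin ρ → ι)
    (hd : Matrix.det (Matrix.of fun i j => x (R i) (C j)) ≠ 0) {B : ℝ} (hB : 1 ≤ B)
    (hx : ∀ i k, a (x (R i) k) ≤ B) {w : ι → K} (hw : w ∈ Submodule.span K (Set.range x)) :
    ∃ c : Fin ρ → K, w = ∑ i, c i • x (R i) ∧
      ∀ i, a (c i) * a (Matrix.det (Matrix.of fun i j => x (R i) (C j))) ≤
        kap a ρ.factorial * B ^ ρ * nrm a w := by
  classical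
  rw [← span_eq_of_minor_ne_zero x h R C hd] at hw
  obtain ⟨c, hc⟩ := (Submodule.mem_span_range_iff_exists_fun K).1 hw
  refine ⟨c, hc.symm, fun i => ?_⟩
  set M : Matrix (Fin ρ) (Fin ρ) K := Matrix.of fun i j => x (R i) (C j) with hM
  have hwC : (fun j => w (C j)) = M.transpose.mulVec c := by
    funext j
    rw [← hc]
    simp [Matrix.mulVec, dotProduct, hM, mul_comm]
  have hcr : c i * M.det = (M.updateRow i (fun j => w (C j))).det := by
    have h1 : Matrix.cramer M.transpose (M.transpose.mulVec c) = M.transpose.det • c := by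
      rw [Matrix.cramer_eq_adjugate_mulVec, Matrix.mulVec_mulVec, Matrix.adjugate_mul,
        Matrix.smul_mulVec, Matrix.one_mulVec]
    have h2 := congrFun h1 i
    rw [Matrix.cramer_apply, ← hwC, Matrix.updateCol_transpose, Matrix.det_transpose,
      Matrix.det_transpose, Pi.smul_apply, smul_eq_mul] at h2
    rw [h2, mul_comm]
  have hN : 0 ≤ nrm a w := nrm_nonneg a w
  have hB0 : 0 ≤ B := zero_le_one.trans hB
  have hbd := abv_det_le a (M.updateRow i (fun j => w (C j)))
    (fun i' => B * (if i' = i then nrm a w else 1))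
    (fun i' => mul_nonneg hB0 (by split_ifs <;> positivity))
    (by
      intro i' j
      by_cases hi : i' = i
      · subst hi
        rw [Matrix.updateRow_self, if_pos rfl]
        calc a (w (C j)) ≤ nrm a w := le_nrm a w (C j)
          _ = 1 * nrm a w := (one_mul _).symm
          _ ≤ B * nrm a w := mul_le_mul_of_nonneg_right hB hN
      · rw [Matrix.updateRow_ne hi, if_neg hi, mul_one]
        exact hx i' (C j))
  rw [← map_mul, hcr]
  refine hbd.trans (le_of_eq ?_)
  rw [Finset.prod_mul_distrib, Finset.prod_const, Finset.card_univ, Fintype.card_fin,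
    Finset.prod_ite_eq' Finset.univ i, if_pos (Finset.mem_univ i), mul_assoc]

end Fermat.Agent.MW
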