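import Fermat.Agent.MW.Eng.Closed
import Fermat.Agent.MW.Eng.Minor

/-!
# MW / ENG leaf 3: uniform solvability of linear systems of constant rank; rank conditions are closed.

`N` a matrix of polynomials in `ℚ[z]`, `S` a `ℚ`-closed set on which `rank N(z) = ρ`.  Then the `ρ × ρ`
minors of `N` have no common zero on `S`; by `IsQClosed.bound_below` one of them is `≥ 1/κ_v` at every
point of `S` in the unit polydisc; conclude by `solve_bound` (entries of `N(z)` bounded by
`abv_aeval_le_fam`).
-/

set_option autoImplicit false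

noncomputable section

namespace Fermat.Agent.MW

open MvPolynomial

variable {σ α ι : Type*}

/-- The minors of a matrix of polynomials. -/
def minorPoly (N : α → ι → MvPolynomial σ ℚ) {k : ℕ} (R : Fin k → α) (C : Fin k → ι) :
    MvPolynomial σ ℚ := Matrix.det (Matrix.of fun i j => N (R i) (C j))

theorem aeval_minorPoly (N : α → ι → MvPolynomial σ ℚ) {k : ℕ} (R : Fin k → α) (C : Fin k → ι)
    (z : σ → Qb) : aeval z (minorPoly N R C) =
      Matrix.det (Matrix.of fun i j => evalMat N z (R i) (C j)) := by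
  unfold minorPoly
  rw [AlgHom.map_det]
  rfl

/-- Rank conditions are closed. -/
theorem isQClosed_rank_le [Finite α] [Fintype ι] (N : α → ι → MvPolynomial σ ℚ) (ρ : ℕ) :
    IsQClosed {z : σ → Qb | Module.finrank Qb (rowSpan N z) ≤ ρ} := by
  have h := isQClosed_zeros (σ := σ) (κ := (Fin (ρ + 1) → α) × (Fin (ρ + 1) → ι))
    (fun k => minorPoly N k.1 k.2)
  convert h using 1
  ext z
  simp only [Set.mem_ofPred_eq]
  rw [rowSpan, finrank_le_iff_minors]
  constructor
  · intro H k
    rw [aeval_minorPoly]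
    exact H k.1 k.2
  · intro H R C
    rw [← aeval_minorPoly]
    exact H (R, C)

/-- **Uniform solvability.** -/
theorem uniform_solve [Finite σ] [Fintype α] [Fintype ι] {S : Set (σ → Qb)} (hS : IsQClosed S)
    (N : α → ι → MvPolynomial σ ℚ) (ρ : ℕ) (hρ : ∀ z ∈ S, Module.finrank Qb (rowSpan N z) = ρ) :
    ∃ c : AdC, ∀ (A : AbsFam) (v : Plc) (z : σ → Qb), z ∈ S → (∀ i, A.abv v (z i) ≤ 1) →
      ∀ w ∈ rowSpan N z, ∃ x : α → Qb, w = ∑ a, x a • evalMat N z a ∧
        ∀ a, A.abv v (x a) ≤ c.c v * nrm (A.abv v) w := by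
  classical
  obtain ⟨c1, hc1⟩ := hS.bound_below (κ := (Fin ρ → α) × (Fin ρ → ι))
    (fun k => minorPoly N k.1 k.2) (by
      intro z hz
      obtain ⟨R, C, hRC⟩ := exists_minor_ne_zero (evalMat N z) (hρ z hz)
      exact ⟨(R, C), by rw [aeval_minorPoly]; exact hRC⟩)
  obtain ⟨c2, hc2⟩ := abv_aeval_le_fam (σ := σ) (κ := α × ι) (fun p => N p.1 p.2)
  refine ⟨c1 * AdC.arch ρ.factorial (Nat.factorial_pos ρ) * c2.npow ρ, ?_⟩
  intro A v z hz hz1 w hw
  obtain ⟨⟨R, C⟩, hk⟩ := hc1 A v z hz hz1
  simp only at hk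
  rw [aeval_minorPoly] at hk
  set D := Matrix.det (Matrix.of fun i j => evalMat N z (R i) (C j)) with hDdef
  have hD : D ≠ 0 := by
    intro h0
    rw [h0, map_zero, mul_zero] at hk
    linarith
  obtain ⟨c, hcw, hcb⟩ := solve_bound (A.abv v) (evalMat N z) (hρ z hz) R C hD (B := c2.c v)
    (c2.one_le v) (fun i k => hc2 A v z hz1 (R i, k)) hw
  have hRinj : Function.Injective R := by
    have hli := linearIndependent_of_minor_ne_zero (evalMat N z) R C hD
    intro i j hij
    exact hli.injective (by show evalMat N z (R i) = evalMat N z (R j); rw [hij])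
  have hnn : 0 ≤ nrm (A.abv v) w := nrm_nonneg _ _
  have hcv : (c1 * AdC.arch ρ.factorial (Nat.factorial_pos ρ) * c2.npow ρ).c v =
      c1.c v * (AdC.arch ρ.factorial (Nat.factorial_pos ρ)).c v * c2.c v ^ ρ := rfl
  refine ⟨Function.extend R c 0, ?_, fun a => ?_⟩
  · rw [hcw]
    refine Fintype.sum_of_injective R hRinj _ _ (fun a ha => ?_) (fun i => ?_)
    · rw [Function.extend_apply' _ _ _ (by simpa using ha), Pi.zero_apply, zero_smul]
    · rw [hRinj.extend_apply]
  · by_cases ha : ∃ i, R i = a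
    · obtain ⟨i, rfl⟩ := ha
      rw [hRinj.extend_apply, hcv]
      have h1 := hcb i
      have h0 : 0 ≤ A.abv v (c i) := (A.abv v).nonneg _
      have hB : 0 ≤ c2.c v ^ ρ := pow_nonneg (c2.pos v).le ρ
      calc A.abv v (c i) = A.abv v (c i) * 1 := (mul_one _).symm
        _ ≤ A.abv v (c i) * (c1.c v * A.abv v D) := mul_le_mul_of_nonneg_left hk h0
        _ = c1.c v * (A.abv v (c i) * A.abv v D) := by ring
        _ ≤ c1.c v * (kap (A.abv v) ρ.factorial * c2.c v ^ ρ * nrm (A.abv v) w) :=
            mul_le_mul_of_nonneg_left h1 (c1.pos v).le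
        _ ≤ c1.c v * ((AdC.arch ρ.factorial (Nat.factorial_pos ρ)).c v * c2.c v ^ ρ *
              nrm (A.abv v) w) := by
            refine mul_le_mul_of_nonneg_left ?_ (c1.pos v).le
            refine mul_le_mul_of_nonneg_right ?_ hnn
            exact mul_le_mul_of_nonneg_right (kap_le_arch A v _ _) hB
        _ = _ := by ring
    · rw [Function.extend_apply' _ _ _ ha, Pi.zero_apply, map_zero]
      exact mul_nonneg (AdC.pos _ v).le hnn

end Fermat.Agent.MW
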