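import Fermat.Agent.MW.Eng.Solve

/-!
# MW / ENG leaf 5: closed families of subspaces; (US) uniform surjectivity of multiplication.

(US)  For every pair `(I₁, I₂)` of column choices let `σ = (Fin r₁ × ι₁) ⊕ (Fin r₂ × ι₂)`,
`S = {(z₁, z₂) | z₁ ∈ S₁, z₂ ∈ S₂, echelon equations w.r.t. I₁, I₂}` (`IsQClosed.prod`, `.inter`, `.comp`,
`isQClosed_echelon`), `N (i,j) k = ∑ γ a b k * X (inl (i,a)) * X (inr (j,b))`.  On `S` the frames are linearly
independent, `rowSpan N z = Submodule.map₂ (bil γ) (span rows z₁) (span rows z₂)` (`Submodule.map₂_span_span`)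
has dimension `ρ`.  Apply `uniform_solve`, and take the product of the constants over all `(I₁, I₂)`.
-/

set_option autoImplicit false

namespace Fermat.Agent.MW

open MvPolynomial

variable {ι₁ ι₂ ι₃ : Type*} [Fintype ι₁] [Fintype ι₂] [Fintype ι₃]

/-- The echelon equations alone imply linear independence. -/
theorem US_linearIndependent_of_echelon {ι : Type*} {r : ℕ} {y : Fin r → ι → Qb} {I : Fin r → ι}
    (h : ∀ i j, y i (I j) = if i = j then 1 else 0) : LinearIndependent Qb y := by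
  rw [Fintype.linearIndependent_iff]
  intro g hg j
  have h1 := congrFun hg (I j)
  simpa [h] using h1

/-- The family `{⊤}`. -/
theorem isQClosedFam_top {ι : Type*} [Fintype ι] :
    IsQClosedFam (Fintype.card ι) {(⊤ : Submodule Qb (ι → Qb))} := by
  refine ⟨?_, Set.univ, isQClosed_univ, ?_⟩
  · intro W hW
    rw [Set.mem_singleton_iff] at hW
    rw [hW, finrank_top, Module.finrank_fintype_fun_eq_card]
  · intro z hz
    simp only [Set.mem_univ, true_iff, Set.mem_singleton_iff]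
    exact hz.span_eq_top_of_card_eq_finrank' (by simp)

/-- The span of the standard basis vectors. -/
theorem US_span_single {ι : Type*} [Fintype ι] [DecidableEq ι] :
    Submodule.span Qb (Set.range fun a : ι => (Pi.single a (1 : Qb) : ι → Qb)) = ⊤ := by
  have h := (Pi.basisFun Qb ι).span_eq
  have h2 : (⇑(Pi.basisFun Qb ι) : ι → ι → Qb) = fun a : ι => (Pi.single a (1 : Qb) : ι → Qb) := by
    funext a
    exact Pi.basisFun_apply Qb ι a
  rwa [h2] at h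

/-- Families cut out by a rank condition on the product with the whole space `ℚ̄^ι₁`. -/
theorem isQClosedFam_map₂_le (γ : ι₁ → ι₂ → ι₃ → ℚ) (r ρ : ℕ) :
    IsQClosedFam r {W : Submodule Qb (ι₂ → Qb) | Module.finrank Qb W = r ∧
      Module.finrank Qb (Submodule.map₂ (bil γ) ⊤ W) ≤ ρ} := by
  classical
  let N : ι₁ × Fin r → ι₃ → MvPolynomial (Fin r × ι₂) ℚ :=
    fun p k => ∑ b, C (γ p.1 b k) * X (p.2, b)
  have hev : ∀ (z : Fin r × ι₂ → Qb) (p : ι₁ × Fin r),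
      evalMat N z p = bil γ (Pi.single p.1 1) (rows z p.2) := by
    intro z p
    funext k
    rw [bil_apply, Finset.sum_eq_single p.1]
    · simp [evalMat, N, rows]
    · intro a _ ha
      simp [ha]
    · intro h
      exact absurd (Finset.mem_univ _) h
  have hrow : ∀ z : Fin r × ι₂ → Qb,
      rowSpan N z = Submodule.map₂ (bil γ) ⊤ (Submodule.span Qb (Set.range (rows z))) := by
    intro z
    rw [← US_span_single (ι := ι₁), Submodule.map₂_span_span, Set.image2_range, rowSpan]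
    congr 2
    funext p
    exact hev z p
  refine ⟨fun W hW => hW.1, {z | Module.finrank Qb (rowSpan N z) ≤ ρ},
    isQClosed_rank_le N ρ, ?_⟩
  intro z hz
  have h1 : Module.finrank Qb (Submodule.span Qb (Set.range (rows z))) = r := by
    rw [finrank_span_eq_card hz, Fintype.card_fin]
  simp only [Set.mem_ofPred_eq, h1, true_and]
  rw [hrow z]

/-- **(US)** for fixed column choices. -/
theorem US_abs_aux (γ : ι₁ → ι₂ → ι₃ → ℚ) {r₁ r₂ ρ : ℕ} {𝒲₁ : Set (Submodule Qb (ι₁ → Qb))}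
    {𝒲₂ : Set (Submodule Qb (ι₂ → Qb))} (h₁ : IsQClosedFam r₁ 𝒲₁) (h₂ : IsQClosedFam r₂ 𝒲₂)
    (hρ : ∀ W₁ ∈ 𝒲₁, ∀ W₂ ∈ 𝒲₂, Module.finrank Qb (Submodule.map₂ (bil γ) W₁ W₂) = ρ)
    (I₁ : Fin r₁ → ι₁) (I₂ : Fin r₂ → ι₂) :
    ∃ c : AdC, ∀ (A : AbsFam) (v : Plc) (y₁ : Fin r₁ → ι₁ → Qb)
      (y₂ : Fin r₂ → ι₂ → Qb), IsEchelon (A.abv v) y₁ I₁ →
      IsEchelon (A.abv v) y₂ I₂ → Submodule.span Qb (Set.range y₁) ∈ 𝒲₁ →
      Submodule.span Qb (Set.range y₂) ∈ 𝒲₂ →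
      ∀ w ∈ Submodule.map₂ (bil γ) (Submodule.span Qb (Set.range y₁))
          (Submodule.span Qb (Set.range y₂)),
        ∃ x : Fin r₁ → Fin r₂ → Qb, w = ∑ i, ∑ j, x i j • bil γ (y₁ i) (y₂ j) ∧
          ∀ i j, A.abv v (x i j) ≤ c.c v * nrm (A.abv v) w := by
  classical
  obtain ⟨-, S₁, hS₁, hS₁'⟩ := h₁
  obtain ⟨-, S₂, hS₂, hS₂'⟩ := h₂
  let N : Fin r₁ × Fin r₂ → ι₃ → MvPolynomial ((Fin r₁ × ι₁) ⊕ (Fin r₂ × ι₂)) ℚ :=
    fun p k => ∑ a, ∑ b, C (γ a b k) * (X (Sum.inl (p.1, a)) * X (Sum.inr (p.2, b)))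
  have hev : ∀ (z : (Fin r₁ × ι₁) ⊕ (Fin r₂ × ι₂) → Qb) (p : Fin r₁ × Fin r₂),
      evalMat N z p = bil γ (rows (fun s => z (Sum.inl s)) p.1) (rows (fun t => z (Sum.inr t)) p.2) := by
    intro z p
    funext k
    rw [bil_apply]
    simp [evalMat, N, rows]
  have hrow : ∀ z : (Fin r₁ × ι₁) ⊕ (Fin r₂ × ι₂) → Qb,
      rowSpan N z = Submodule.map₂ (bil γ)
        (Submodule.span Qb (Set.range (rows (fun s => z (Sum.inl s)))))
        (Submodule.span Qb (Set.range (rows (fun t => z (Sum.inr t))))) := by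
    intro z
    rw [Submodule.map₂_span_span, Set.image2_range, rowSpan]
    congr 2
    funext p
    exact hev z p
  set S : Set ((Fin r₁ × ι₁) ⊕ (Fin r₂ × ι₂) → Qb) :=
    {z | (fun s => z (Sum.inl s)) ∈ S₁ ∧ (fun t => z (Sum.inr t)) ∈ S₂} ∩
      ({z | (fun s => z (Sum.inl s)) ∈
          {z : Fin r₁ × ι₁ → Qb | ∀ i j, z (i, I₁ j) = if i = j then 1 else 0}} ∩
        {z | (fun t => z (Sum.inr t)) ∈
          {z : Fin r₂ × ι₂ → Qb | ∀ i j, z (i, I₂ j) = if i = j then 1 else 0}}) with hS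
  have hSc : IsQClosed S :=
    (hS₁.prod hS₂).inter (((isQClosed_echelon I₁).comp Sum.inl).inter
      ((isQClosed_echelon I₂).comp Sum.inr))
  have hrank : ∀ z ∈ S, Module.finrank Qb (rowSpan N z) = ρ := by
    rintro z ⟨⟨hz1, hz2⟩, he1, he2⟩
    rw [hrow z]
    have hl1 : LinearIndependent Qb (rows (fun s => z (Sum.inl s))) :=
      US_linearIndependent_of_echelon (I := I₁) he1
    have hl2 : LinearIndependent Qb (rows (fun t => z (Sum.inr t))) :=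
      US_linearIndependent_of_echelon (I := I₂) he2
    exact hρ _ ((hS₁' _ hl1).1 hz1) _ ((hS₂' _ hl2).1 hz2)
  obtain ⟨c, hc⟩ := uniform_solve hSc N ρ hrank
  refine ⟨c, ?_⟩
  intro A v y₁ y₂ he1 he2 hW1 hW2 w hw
  set z : (Fin r₁ × ι₁) ⊕ (Fin r₂ × ι₂) → Qb := Sum.elim (unrows y₁) (unrows y₂) with hz
  have hz1 : (fun s => z (Sum.inl s)) = unrows y₁ := rfl
  have hz2 : (fun t => z (Sum.inr t)) = unrows y₂ := rfl
  have hl1 : LinearIndependent Qb y₁ := US_linearIndependent_of_echelon (I := I₁) he1.1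
  have hl2 : LinearIndependent Qb y₂ := US_linearIndependent_of_echelon (I := I₂) he2.1
  have hzS : z ∈ S := by
    refine ⟨⟨?_, ?_⟩, ?_, ?_⟩
    · show (fun s => z (Sum.inl s)) ∈ S₁
      rw [hz1]
      exact (hS₁' (unrows y₁) (by rw [rows_unrows]; exact hl1)).2 (by rw [rows_unrows]; exact hW1)
    · show (fun t => z (Sum.inr t)) ∈ S₂
      rw [hz2]
      exact (hS₂' (unrows y₂) (by rw [rows_unrows]; exact hl2)).2 (by rw [rows_unrows]; exact hW2)
    · exact he1.1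
    · exact he2.1
  have hzb : ∀ i, A.abv v (z i) ≤ 1 := by
    rintro (⟨i, k⟩ | ⟨i, k⟩)
    · exact he1.2 i k
    · exact he2.2 i k
  have hw' : w ∈ rowSpan N z := by
    rw [hrow z, hz1, hz2, rows_unrows, rows_unrows]
    exact hw
  obtain ⟨x, hx, hxb⟩ := hc A v z hzS hzb w hw'
  refine ⟨fun i j => x (i, j), ?_, fun i j => hxb (i, j)⟩
  rw [hx, Fintype.sum_prod_type]
  refine Finset.sum_congr rfl fun i _ => Finset.sum_congr rfl fun j _ => ?_
  rw [hev z (i, j), hz1, hz2, rows_unrows, rows_unrows]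

/-- **(US)** uniform surjectivity. -/
theorem US_abs (γ : ι₁ → ι₂ → ι₃ → ℚ) {r₁ r₂ ρ : ℕ} {𝒲₁ : Set (Submodule Qb (ι₁ → Qb))}
    {𝒲₂ : Set (Submodule Qb (ι₂ → Qb))} (h₁ : IsQClosedFam r₁ 𝒲₁) (h₂ : IsQClosedFam r₂ 𝒲₂)
    (hρ : ∀ W₁ ∈ 𝒲₁, ∀ W₂ ∈ 𝒲₂, Module.finrank Qb (Submodule.map₂ (bil γ) W₁ W₂) = ρ) :
    ∃ c : AdC, ∀ (A : AbsFam) (v : Plc) (y₁ : Fin r₁ → ι₁ → Qb) (I₁ : Fin r₁ → ι₁)
      (y₂ : Fin r₂ → ι₂ → Qb) (I₂ : Fin r₂ → ι₂), IsEchelon (A.abv v) y₁ I₁ →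
      IsEchelon (A.abv v) y₂ I₂ → Submodule.span Qb (Set.range y₁) ∈ 𝒲₁ →
      Submodule.span Qb (Set.range y₂) ∈ 𝒲₂ →
      ∀ w ∈ Submodule.map₂ (bil γ) (Submodule.span Qb (Set.range y₁))
          (Submodule.span Qb (Set.range y₂)),
        ∃ x : Fin r₁ → Fin r₂ → Qb, w = ∑ i, ∑ j, x i j • bil γ (y₁ i) (y₂ j) ∧
          ∀ i j, A.abv v (x i j) ≤ c.c v * nrm (A.abv v) w := by
  classical
  choose c hc using fun I : (Fin r₁ → ι₁) × (Fin r₂ → ι₂) => US_abs_aux γ h₁ h₂ hρ I.1 I.2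
  refine ⟨AdC.prod Finset.univ c, ?_⟩
  intro A v y₁ I₁ y₂ I₂ he1 he2 hW1 hW2 w hw
  obtain ⟨x, hx, hxb⟩ := hc (I₁, I₂) A v y₁ y₂ he1 he2 hW1 hW2 w hw
  refine ⟨x, hx, fun i j => (hxb i j).trans ?_⟩
  exact mul_le_mul_of_nonneg_right (AdC.le_prod Finset.univ c (Finset.mem_univ (I₁, I₂)) v)
    (nrm_nonneg _ _)

end Fermat.Agent.MW
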